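import Mathlib
import Fermat.Agent.LT.T6.Spec
import Fermat.Agent.LT.T6.SpecArch
import Fermat.Agent.LT.T6.H830.HCSpec
import Fermat.Agent.LT.T6.H626.ArchCut

/-!
# Row LT, tower T6, station T6.20x `ArchConv` (helper680): THE ARCHIMEDEAN PRODUCT RULE at the
# real place (for `ConstrQRC` / `ProdMt` over `ℚ`) -- THE CUT

OFF-MAIN.  Definitions and frozen Props only (the proved top is `ArchConvTop.lean`).  No hole,
nothing assumed.  ADDITIVE (new names only, suffix `680`).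

## Why

The members of the families of the supply are CONVOLUTIONS `Φ₁ ⋆ (… φ₂)`, `F₁ n ⋆ (… f₂ n)`.
Over `ℚ` the local hypothesis of the matching theorem (`MQ298.LocHypQ298.arch`, helper298) asks
for the EXACT matching `T6.IsArchMatch μr μc Φ (F0 + F1)` of the archimedean components of the
members, with `IsArchTestC Φ`, `IsArchTestR 0 F0`, `IsArchTestR (-1) F1`.  For the members:
`Φ = φ¹ ⋆ φ²`, `F0 = f¹₀ ⋆ f²₀`, `F1 = f¹₁ ⋆ f²₁` (up to constants).  `T6.ArchInjC` gives the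
multiplicativity of the matching only MODULO THE CENTRE; the exact statement follows from the
closed leaves of T6.20 (helper626) through the `N`-integrals:

    N-integral of a convolution = κ · (convolution on ℝ² of the N-integrals)   (both groups)
    ⇒ the Abel relation `IsAbelRel626` is multiplicative (constant `4 c₁ c₂ κ_ℝ / κ_ℂ`)
    ⇒ (closed `geoMatchC626_closed`) the products are matched.

## The leaves

| leaf | Prop | content |
|---|---|---|
| X.1 | `AbelConvRC680` | `N(f ⋆ g)(v) = κ ∫_{ℝ²} N(f)(u) N(g)(v - u) du`, `GL₂(ℝ)`, weight `n` |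
| X.2 | `AbelConvCC680` | the same on `GL₂(ℂ)`, bi-`U(2)`-invariant |
| X.3 | `ConvTestRC680` | `IsArchTestR n` is stable under convolution |
| X.4 | `ConvTestCC680` | `IsArchTestC` is stable under convolution |

Coordinates: `b(ζ, r, x) = H830.bR ζ r x = e^{ζ/2} !![e^{r/2}, e^{r/2} x; 0, e^{-r/2}]`,
`N(f)(ζ, r) = ∫ f(b(ζ, r, x)) dx`; group law
`b(ζ, r, x)⁻¹ b(ζ₀, r₀, t) = b(ζ₀ - ζ, r₀ - r, t - x e^{-(r₀ - r)})`.
Proof of X.1 (X.2 is the same with `H830.IwasawaIntCC`): for fixed `z` the function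
`y ↦ f(y) g(y⁻¹ z)` is continuous with compact support, supported in `det > 0`, and right
`SO(2)`-invariant (the weights cancel: `f(y k) g(k⁻¹ y⁻¹ z) = f(y) g(y⁻¹ z)`), so by the CLOSED
Iwasawa integration formula `H830.IwasawaIntRC` (`H673.iwasawaIntRC673`)
`(f ⋆ g)(z) = c ∫∫∫ f(b(ζ, r, x)) g(b(ζ, r, x)⁻¹ z) dx dr dζ`.  For `z = b(ζ₀, r₀, t)` the
integral over `t` is translation invariant: `∫ g(b(ζ', r', t - x e^{-r'})) dt = N(g)(ζ', r')`,
and `∫ f(b(ζ, r, x)) dx = N(f)(ζ, r)`.  Fubini: the integrand is continuous with compact support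
in `(ζ, r, x, t)`.  `κ = c`.
Proof of X.3: continuity and compact support of the convolution of two continuous functions
with compact support (`supp ⊆ supp f · supp g`); `det > 0` (`det y > 0`, `det (y⁻¹ z) > 0`);
left weight by the left invariance of `μ`, right weight from `g`; smoothness: derivation under
the integral (the family `t ↦ g(y⁻¹ z h(t))` is smooth, jointly in a chart of `y`: apply the
field `smooth` of `g` to families in `m + 4` variables).
-/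

set_option autoImplicit false

open MeasureTheory
open scoped Matrix ContDiff

noncomputable section

namespace Fermat.Agent.LT.T6.H680

open Fermat.Agent.LT.T6 Fermat.Agent.LT.T6.H626

/-! ## 1. Vocabulary -/

/-- Convolution on `GL₂(ℝ)` (Borel σ-algebra): `(f ⋆ g)(z) = ∫ f(y) g(y⁻¹ z) dμ(y)`
(`T6.convInt`). -/
def convR680 (μ : @Measure (GL (Fin 2) ℝ) (borel _)) (f g : GL (Fin 2) ℝ → ℂ) :
    GL (Fin 2) ℝ → ℂ :=
  fun z => @convInt (GL (Fin 2) ℝ) _ (borel _) μ f g z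

/-- Convolution on `GL₂(ℂ)` (Borel σ-algebra). -/
def convC680 (μ' : @Measure (GL (Fin 2) ℂ) (borel _)) (φ ψ : GL (Fin 2) ℂ → ℂ) :
    GL (Fin 2) ℂ → ℂ :=
  fun z => @convInt (GL (Fin 2) ℂ) _ (borel _) μ' φ ψ z

/-- The `N`-integral on `GL₂(ℝ)` in the coordinates of `H830.bR`:
`N(f)(ζ, r) = ∫_ℝ f(e^{ζ/2} !![e^{r/2}, e^{r/2} x; 0, e^{-r/2}]) dx`. -/
def nIntR680 (f : GL (Fin 2) ℝ → ℂ) (u : ℝ × ℝ) : ℂ :=
  ∫ x : ℝ, f (H830.bR u.1 u.2 x)

/-- The `N`-integral on `GL₂(ℂ)` in the coordinates of `H830.bC`: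
`N(φ)(ζ, r) = ∫_ℂ φ(e^{ζ/2} !![e^{r/2}, e^{r/2} w; 0, e^{-r/2}]) dw`. -/
def nIntC680 (φ : GL (Fin 2) ℂ → ℂ) (u : ℝ × ℝ) : ℂ :=
  ∫ w : ℂ, φ (H830.bC u.1 u.2 w)

/-! ## 2. The leaves -/

/-- **X.1 (the `N`-integral of a convolution, `GL₂(ℝ)`).**  For every Haar measure `μ` there is
`κ > 0` with `N(f ⋆ g)(v) = κ ∫_{ℝ²} N(f)(u) N(g)(v - u) du` for all test functions `f`, `g` of
the same weight `n`. -/
def AbelConvRC680 : Prop :=
  ∀ μ : @Measure (GL (Fin 2) ℝ) (borel _), @Measure.IsHaarMeasure _ _ _ (borel _) μ →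
    ∃ κ : ℝ, 0 < κ ∧
      ∀ (n : ℤ) (f g : GL (Fin 2) ℝ → ℂ), IsArchTestR n f → IsArchTestR n g →
        ∀ v : ℝ × ℝ, nIntR680 (convR680 μ f g) v
          = (κ : ℂ) * ∫ u : ℝ × ℝ, nIntR680 f u * nIntR680 g (v - u)

/-- **X.2 (the `N`-integral of a convolution, `GL₂(ℂ)`).** -/
def AbelConvCC680 : Prop :=
  ∀ μ' : @Measure (GL (Fin 2) ℂ) (borel _), @Measure.IsHaarMeasure _ _ _ (borel _) μ' →
    ∃ κ : ℝ, 0 < κ ∧
      ∀ φ ψ : GL (Fin 2) ℂ → ℂ, IsArchTestC φ → IsArchTestC ψ →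
        ∀ v : ℝ × ℝ, nIntC680 (convC680 μ' φ ψ) v
          = (κ : ℂ) * ∫ u : ℝ × ℝ, nIntC680 φ u * nIntC680 ψ (v - u)

/-- **X.3 (test functions of weight `n` on `GL₂(ℝ)` are stable under convolution).** -/
def ConvTestRC680 : Prop :=
  ∀ μ : @Measure (GL (Fin 2) ℝ) (borel _), @Measure.IsHaarMeasure _ _ _ (borel _) μ →
    ∀ (n : ℤ) (f g : GL (Fin 2) ℝ → ℂ), IsArchTestR n f → IsArchTestR n g →
      IsArchTestR n (convR680 μ f g)

/-- **X.4 (test functions on `GL₂(ℂ)` are stable under convolution).** -/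
def ConvTestCC680 : Prop :=
  ∀ μ' : @Measure (GL (Fin 2) ℂ) (borel _), @Measure.IsHaarMeasure _ _ _ (borel _) μ' →
    ∀ φ ψ : GL (Fin 2) ℂ → ℂ, IsArchTestC φ → IsArchTestC ψ →
      IsArchTestC (convC680 μ' φ ψ)

/-! ## 3. The nodes (tops in `ArchConvTop.lean`) -/

/-- **The Abel relation is multiplicative** (NODE; top `abelRelConv_of680`).  For all Haar
measures there is `d > 0` such that the Abel relations with constants `c₁`, `c₂` give the Abel
relation of the convolutions with the constant `c₁ c₂ d`. -/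
def AbelRelConvC680 : Prop :=
  ∀ (μ : @Measure (GL (Fin 2) ℝ) (borel _)) (μ' : @Measure (GL (Fin 2) ℂ) (borel _)),
    @Measure.IsHaarMeasure _ _ _ (borel _) μ → @Measure.IsHaarMeasure _ _ _ (borel _) μ' →
    ∃ d : ℝ, 0 < d ∧
      ∀ (n : ℤ) (c₁ c₂ : ℂ) (φ₁ φ₂ : GL (Fin 2) ℂ → ℂ) (f₁ g₁ f₂ g₂ : GL (Fin 2) ℝ → ℂ),
        IsArchTestC φ₁ → IsArchTestC φ₂ →
        IsArchTestR 0 f₁ → IsArchTestR n g₁ → IsArchTestR 0 f₂ → IsArchTestR n g₂ →
        IsAbelRel626 c₁ φ₁ f₁ g₁ → IsAbelRel626 c₂ φ₂ f₂ g₂ →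
        IsAbelRel626 (c₁ * c₂ * (d : ℂ)) (convC680 μ' φ₁ φ₂) (convR680 μ f₁ f₂)
          (convR680 μ g₁ g₂)

/-- **THE ARCHIMEDEAN PRODUCT RULE at the real place** (NODE; top `archProd_of680`).  For all
Haar measures there are constants `c > 0` (the matching constant) and `d > 0` such that for
`n = ±1`: if `(φ₁, f₁, g₁)` and `(φ₂, f₂, g₂)` are in the Abel relation with constants `c₁`, `c₂`
and `c₁ c₂ d = c`, then the convolutions are test functions and `f₁ ⋆ f₂ + g₁ ⋆ g₂` is EXACTLY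
matched with `φ₁ ⋆ φ₂`. -/
def ArchProdC680 : Prop :=
  ∀ (μ : @Measure (GL (Fin 2) ℝ) (borel _)) (μ' : @Measure (GL (Fin 2) ℂ) (borel _)),
    @Measure.IsHaarMeasure _ _ _ (borel _) μ → @Measure.IsHaarMeasure _ _ _ (borel _) μ' →
    ∃ c d : ℝ, 0 < c ∧ 0 < d ∧
      ∀ n : ℤ, n = 1 ∨ n = -1 →
      ∀ (c₁ c₂ : ℂ) (φ₁ φ₂ : GL (Fin 2) ℂ → ℂ) (f₁ g₁ f₂ g₂ : GL (Fin 2) ℝ → ℂ),
        IsArchTestC φ₁ → IsArchTestC φ₂ →
        IsArchTestR 0 f₁ → IsArchTestR n g₁ → IsArchTestR 0 f₂ → IsArchTestR n g₂ →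
        IsAbelRel626 c₁ φ₁ f₁ g₁ → IsAbelRel626 c₂ φ₂ f₂ g₂ → c₁ * c₂ * (d : ℂ) = (c : ℂ) →
        IsArchTestC (convC680 μ' φ₁ φ₂) ∧ IsArchTestR 0 (convR680 μ f₁ f₂) ∧
          IsArchTestR n (convR680 μ g₁ g₂) ∧
          IsArchMatch μ μ' (convC680 μ' φ₁ φ₂)
            (fun z => convR680 μ f₁ f₂ z + convR680 μ g₁ g₂ z)

/-! ## Appendix: the equation lemmas of the definitions of this file are realised HERE -/

theorem eqns_realised_archConv680 : True := by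
  have _a1 := @convR680.eq_1
  have _a2 := @convC680.eq_1
  have _a3 := @nIntR680.eq_1
  have _a4 := @nIntC680.eq_1
  have _b1 := @AbelConvRC680.eq_1
  have _b2 := @AbelConvCC680.eq_1
  have _b3 := @ConvTestRC680.eq_1
  have _b4 := @ConvTestCC680.eq_1
  have _b5 := @AbelRelConvC680.eq_1
  have _b6 := @ArchProdC680.eq_1
  trivial

end Fermat.Agent.LT.T6.H680

end
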